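import Fermat.Statements.S60
import Fermat.Prelude.Def_WeierstrassCurve_Mlc1RowStatement

set_option autoImplicit false
open WeierstrassCurve

namespace Fermat.Agent.S60.helper300

/-- An integral Weierstrass curve is an integral model of its own base change to `ℚ`. -/
theorem isIntegralModelOf_self (W : WeierstrassCurve ℤ) :
    W.IsIntegralModelOf (W.map (Int.castRingHom ℚ)) :=
  ⟨1, one_smul _ _⟩

/-- Exact-conductor-level modularity of the integral model gives modularity over `ℚ`. -/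
theorem isModular_of_mlc1 (W : WeierstrassCurve ℤ)
    (h : Mlc1IsModularModelOfExactConductorLevel W) :
    (W.map (Int.castRingHom ℚ)).IsModular := by
  obtain ⟨N, hN, -, -, hmod⟩ := h
  exact ⟨W, isIntegralModelOf_self W, N, hN, hmod⟩

/-- If `W'` is modular of exact conductor level and its Frobenius traces are congruent mod `p`
to those of `W` at common good primes `ℓ ≠ p`, then `W` is residually modular at `p`,
of a squarefree positive level. -/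
theorem residuallyModular_of_congr (W W' : WeierstrassCurve ℤ) {p : ℕ} (hp : p.Prime)
    (hmod : Mlc1IsModularModelOfExactConductorLevel W')
    (hcong : ∀ ℓ : ℕ, ℓ.Prime → W.IsGoodPrimeFor ℓ → W'.IsGoodPrimeFor ℓ → ℓ ≠ p →
      (p : ℤ) ∣ (W'.apOfModel ℓ - W.apOfModel ℓ)) :
    ∃ N : ℕ, 0 < N ∧ Squarefree N ∧ W.IsResiduallyModularOfLevel p N := by
  obtain ⟨N, hN, hsq, hNΔ, f, hf, hfa⟩ := hmod
  obtain ⟨𝔪, h𝔪, hp𝔪⟩ := FLTPrelim.exists_maximalIdeal_natCast_prime_mem hp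
  refine ⟨N, hN, hsq, f, 𝔪, hf, h𝔪, hp𝔪, ?_⟩
  intro ℓ hℓ hgood hℓN hℓp
  have hgood' : W'.IsGoodPrimeFor ℓ := fun h => hℓN ((hNΔ ℓ hℓ).mpr h)
  refine ⟨((W'.apOfModel ℓ : ℤ) : integralClosure ℤ ℂ), ?_, ?_⟩
  · rw [hfa ℓ hℓ hgood' hℓN]; simp
  · obtain ⟨k, hk⟩ := hcong ℓ hℓ hgood hgood' hℓp
    have : ((W'.apOfModel ℓ : ℤ) : integralClosure ℤ ℂ) - ((W.apOfModel ℓ : ℤ) : integralClosure ℤ ℂ)
        = (p : integralClosure ℤ ℂ) * ((k : ℤ) : integralClosure ℤ ℂ) := by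
      rw [← Int.cast_sub, hk]; push_cast; rfl
    rw [this]
    exact Ideal.mul_mem_right _ _ hp𝔪

/-- Top wiring for S60 (semistable modularity).  Inputs:
* `h51` : S51 (3 or 5 is irreducible);
* `h52` : S52 (the 3–5 switch);
* `h3`  : residual modularity at 3 of a level `M₀` with `9 ∤ M₀`, cube-free away from 3
          (S50 *plus* removal of `9 ∣ M`);
* `h59` : S59 (modularity lifting at 3 and 5). -/
theorem modular_of_inputs
    (h51 : ∀ W : WeierstrassCurve ℤ, W.Δ ≠ 0 → W.IsSemistableModel →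
      W.ModRepIsIrreducible 3 ∨ W.ModRepIsIrreducible 5)
    (h52 : ∀ W : WeierstrassCurve ℤ, W.Δ ≠ 0 → W.IsSemistableModel → W.ModRepIsIrreducible 5 →
      ∃ W' : WeierstrassCurve ℤ, W'.Δ ≠ 0 ∧ W'.IsSemistableModel ∧ W'.ModRepIsIrreducible 3 ∧
        ∀ ℓ : ℕ, ℓ.Prime → W.IsGoodPrimeFor ℓ → W'.IsGoodPrimeFor ℓ → ℓ ≠ 5 →
          (5 : ℤ) ∣ (W'.apOfModel ℓ - W.apOfModel ℓ))
    (h3 : ∀ W : WeierstrassCurve ℤ, W.Δ ≠ 0 → W.IsSemistableModel → W.ModRepIsIrreducible 3 →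
      ∃ M₀ : ℕ, 0 < M₀ ∧ W.IsResiduallyModularOfLevel 3 M₀ ∧ ¬ 3 ^ 2 ∣ M₀ ∧
        ∀ q : ℕ, q.Prime → q ≠ 3 → ¬ q ^ 3 ∣ M₀)
    (h59 : ∀ p : ℕ, p = 3 ∨ p = 5 → ∀ W : WeierstrassCurve ℤ, W.Δ ≠ 0 → W.IsSemistableModel →
      W.ModRepIsIrreducible p → ∀ (M₀ : ℕ) [NeZero M₀], W.IsResiduallyModularOfLevel p M₀ →
      ¬ p ^ 2 ∣ M₀ → (∀ q : ℕ, q.Prime → q ≠ p → ¬ q ^ 3 ∣ M₀) →
      Mlc1IsModularModelOfExactConductorLevel W)
    (W : WeierstrassCurve ℤ) (hΔ : W.Δ ≠ 0) (hW : W.IsSemistableModel) :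
    (W.map (Int.castRingHom ℚ)).IsModular := by
  -- modularity when 3 is irreducible
  have key3 : ∀ V : WeierstrassCurve ℤ, V.Δ ≠ 0 → V.IsSemistableModel → V.ModRepIsIrreducible 3 →
      Mlc1IsModularModelOfExactConductorLevel V := by
    intro V hVΔ hV hV3
    obtain ⟨M₀, hM₀, hres, h9, hcube⟩ := h3 V hVΔ hV hV3
    have : NeZero M₀ := ⟨hM₀.ne'⟩
    exact h59 3 (Or.inl rfl) V hVΔ hV hV3 M₀ hres h9 hcube
  apply isModular_of_mlc1
  rcases h51 W hΔ hW with h | h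
  · exact key3 W hΔ hW h
  · obtain ⟨W', hW'Δ, hW', hW'3, hcong⟩ := h52 W hΔ hW h
    have hmod' := key3 W' hW'Δ hW' hW'3
    obtain ⟨N, hN, hsq, hres⟩ :=
      residuallyModular_of_congr W W' (p := 5) (by norm_num) hmod' (by exact_mod_cast hcong)
    have : NeZero N := ⟨hN.ne'⟩
    refine h59 5 (Or.inr rfl) W hΔ hW h N hres ?_ ?_
    · intro h25
      exact Nat.squarefree_iff_prime_squarefree.mp hsq 5 (by norm_num) (by rwa [← pow_two])
    · intro q hq _ hq3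
      exact Nat.squarefree_iff_prime_squarefree.mp hsq q hq
        (dvd_trans ⟨q, by ring⟩ hq3)

end Fermat.Agent.S60.helper300
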