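/-
helper480: conditional wiring for S60 (modularity of semistable integral Weierstrass curves).

`modular_of_mlc1`        : exact-conductor-level modularity of `W` gives `(W.map _).IsModular`.
`resModular_five_of_switch` : a 3-5 switch curve that is modular of exact conductor level makes
                           `W` residually modular at 5 of a squarefree level.
`wiring_core`            : S60 from S51-type, S52-type, S59-type hypotheses and modularity in the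
                           mod-3-irreducible case.
`mod3_case`              : the mod-3-irreducible case from S50-type, S59-type hypotheses and a
                           level-optimisation-at-3 hypothesis (not among the frozen statements).
`wiring`                 : everything combined.
No frozen (reserved) name is cited; all inputs are hypotheses.
-/
import Mathlib
import Fermat.Prelude.Def_FLTPrelim_FreyPackage
import Fermat.Prelude.Def_FLTPrelim_GaloisRep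
import Fermat.Prelude.Def_FLTPrelim_Modularity
import Fermat.Prelude.Def_FLTPrelim_ModularRep
import Fermat.Prelude.Def_FLTPrelim_Ramification
import Fermat.Prelude.Def_FLTPrelim_CofixedLine
import Fermat.Prelude.Def_WeierstrassCurve_Mlc1RowStatement

set_option autoImplicit false
open WeierstrassCurve WeierstrassCurve.Affine WeierstrassCurve.Affine.Point
open CuspForm ModularFormClass UpperHalfPlane

namespace Fermat.Agent.S60.helper480

/-- Exact-conductor-level modularity of the integral model gives modularity of the rational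
curve (the integral model is its own integral model, via the identity change of variables). -/
theorem modular_of_mlc1 (W : WeierstrassCurve ℤ)
    (h : Mlc1IsModularModelOfExactConductorLevel W) :
    (W.map (Int.castRingHom ℚ)).IsModular := by
  obtain ⟨N, hN, -, -, hmod⟩ := h
  exact ⟨W, ⟨1, one_smul _ _⟩, N, hN, hmod⟩

/-- If `W'` is modular of exact (squarefree) conductor level and its `a_ℓ` agree with those of
`W` modulo `5` at all common good primes `ℓ ≠ 5`, then `W` is residually modular at `5` of a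
positive squarefree level. -/
theorem resModular_five_of_switch (W W' : WeierstrassCurve ℤ)
    (hmod' : Mlc1IsModularModelOfExactConductorLevel W')
    (hcong : ∀ ℓ : ℕ, ℓ.Prime → W.IsGoodPrimeFor ℓ → W'.IsGoodPrimeFor ℓ → ℓ ≠ 5 →
      (5 : ℤ) ∣ (W'.apOfModel ℓ - W.apOfModel ℓ)) :
    ∃ N : ℕ, 0 < N ∧ Squarefree N ∧ W.IsResiduallyModularOfLevel 5 N := by
  obtain ⟨N, hN, hsq, hbad, f, hf, hfl⟩ := hmod'
  obtain ⟨𝔪, hmax, h5⟩ := FLTPrelim.exists_maximalIdeal_natCast_prime_mem (p := 5) (by norm_num)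
  refine ⟨N, hN, hsq, f, 𝔪, hf, hmax, h5, ?_⟩
  intro ℓ hℓ hgood hℓN hℓ5
  have hgood' : W'.IsGoodPrimeFor ℓ := fun hdvd => hℓN ((hbad ℓ hℓ).mpr hdvd)
  refine ⟨((W'.apOfModel ℓ : ℤ) : integralClosure ℤ ℂ), ?_, ?_⟩
  · rw [hfl ℓ hℓ hgood' hℓN]
    simp
  · obtain ⟨k, hk⟩ := hcong ℓ hℓ hgood hgood' hℓ5
    have h5' : ((5 : ℤ) : integralClosure ℤ ℂ) ∈ 𝔪 := by
      have : ((5 : ℤ) : integralClosure ℤ ℂ) = ((5 : ℕ) : integralClosure ℤ ℂ) := by
        push_cast; rfl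
      rw [this]; exact h5
    have : ((W'.apOfModel ℓ : ℤ) : integralClosure ℤ ℂ) - ((W.apOfModel ℓ : ℤ) : integralClosure ℤ ℂ)
        = ((5 : ℤ) : integralClosure ℤ ℂ) * ((k : ℤ) : integralClosure ℤ ℂ) := by
      rw [← Int.cast_sub, hk, Int.cast_mul]
    rw [this]
    exact 𝔪.mul_mem_right _ h5'

/-- Core wiring: S60 from the mod-3-irreducible case (`h3`), S51 (`h51`), S52 (`h52`) and S59
(`h59`, only used at `p = 5`). -/
theorem wiring_core
    (h51 : ∀ (W : WeierstrassCurve ℤ), W.Δ ≠ 0 → W.IsSemistableModel →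
      W.ModRepIsIrreducible 3 ∨ W.ModRepIsIrreducible 5)
    (h52 : ∀ (W : WeierstrassCurve ℤ), W.Δ ≠ 0 → W.IsSemistableModel →
      W.ModRepIsIrreducible 5 →
      ∃ W' : WeierstrassCurve ℤ, W'.Δ ≠ 0 ∧ W'.IsSemistableModel ∧ W'.ModRepIsIrreducible 3 ∧
        ∀ ℓ : ℕ, ℓ.Prime → W.IsGoodPrimeFor ℓ → W'.IsGoodPrimeFor ℓ → ℓ ≠ 5 →
          (5 : ℤ) ∣ (W'.apOfModel ℓ - W.apOfModel ℓ))
    (h59 : ∀ (p : ℕ), p = 3 ∨ p = 5 → ∀ (W : WeierstrassCurve ℤ), W.Δ ≠ 0 →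
      W.IsSemistableModel → W.ModRepIsIrreducible p →
      ∀ (M₀ : ℕ) [NeZero M₀], W.IsResiduallyModularOfLevel p M₀ → ¬ p ^ 2 ∣ M₀ →
      (∀ q : ℕ, q.Prime → q ≠ p → ¬ q ^ 3 ∣ M₀) →
      Mlc1IsModularModelOfExactConductorLevel W)
    (h3 : ∀ (W : WeierstrassCurve ℤ), W.Δ ≠ 0 → W.IsSemistableModel →
      W.ModRepIsIrreducible 3 → Mlc1IsModularModelOfExactConductorLevel W)
    (W : WeierstrassCurve ℤ) (hΔ : W.Δ ≠ 0) (hW : W.IsSemistableModel) :
    (W.map (Int.castRingHom ℚ)).IsModular := by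
  apply modular_of_mlc1
  rcases h51 W hΔ hW with hirr3 | hirr5
  · exact h3 W hΔ hW hirr3
  · obtain ⟨W', hΔ', hW', hirr', hcong⟩ := h52 W hΔ hW hirr5
    obtain ⟨N, hN, hsq, hres⟩ := resModular_five_of_switch W W' (h3 W' hΔ' hW' hirr') hcong
    have : NeZero N := ⟨hN.ne'⟩
    have hnsq : ∀ q : ℕ, q.Prime → ¬ q ^ 2 ∣ N := by
      intro q hq hdvd
      have : IsUnit q := hsq q (by simpa [sq] using hdvd)
      exact hq.one_lt.ne' (Nat.isUnit_iff.mp this)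
    refine h59 5 (Or.inr rfl) W hΔ hW hirr5 N hres (hnsq 5 (by norm_num)) ?_
    intro q hq _ hdvd
    exact hnsq q hq (dvd_trans (pow_dvd_pow q (by norm_num)) hdvd)

/-- The mod-3-irreducible case from S50 (`h50`), S59 at `p = 3` (`h59`) and a level optimisation
at `3` (`h9`: when `9 ∣ M` and there is no inertia-fixed 3-torsion, the level can be changed to
one not divisible by `9`).  `h9` is NOT one of the frozen statements. -/
theorem mod3_case
    (h50 : ∀ (W : WeierstrassCurve ℤ), W.Δ ≠ 0 → W.IsSemistableModel →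
      W.ModRepIsIrreducible 3 →
      ∃ M : ℕ, 0 < M ∧ W.IsResiduallyModularOfLevel 3 M ∧
        (∀ q : ℕ, q.Prime → q ≠ 3 → ¬ q ^ 3 ∣ M) ∧
        (3 ^ 2 ∣ M →
          ∀ A : ValuationSubring (AlgebraicClosure ℚ), A.LiesOverPrime 3 →
            ∀ x : Submodule.torsionBy ℤ
                ((W.map (Int.castRingHom ℚ))⁄(AlgebraicClosure ℚ)).Point (3 : ℕ),
              (∀ σ ∈ A.inertiaSubgroupIn ℚ, σ • x = x) → x = 0))
    (h59 : ∀ (p : ℕ), p = 3 ∨ p = 5 → ∀ (W : WeierstrassCurve ℤ), W.Δ ≠ 0 →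
      W.IsSemistableModel → W.ModRepIsIrreducible p →
      ∀ (M₀ : ℕ) [NeZero M₀], W.IsResiduallyModularOfLevel p M₀ → ¬ p ^ 2 ∣ M₀ →
      (∀ q : ℕ, q.Prime → q ≠ p → ¬ q ^ 3 ∣ M₀) →
      Mlc1IsModularModelOfExactConductorLevel W)
    (h9 : ∀ (W : WeierstrassCurve ℤ), W.Δ ≠ 0 → W.IsSemistableModel →
      W.ModRepIsIrreducible 3 → ∀ M : ℕ, 0 < M → W.IsResiduallyModularOfLevel 3 M →
      (∀ q : ℕ, q.Prime → q ≠ 3 → ¬ q ^ 3 ∣ M) → 3 ^ 2 ∣ M →
      (∀ A : ValuationSubring (AlgebraicClosure ℚ), A.LiesOverPrime 3 →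
            ∀ x : Submodule.torsionBy ℤ
                ((W.map (Int.castRingHom ℚ))⁄(AlgebraicClosure ℚ)).Point (3 : ℕ),
              (∀ σ ∈ A.inertiaSubgroupIn ℚ, σ • x = x) → x = 0) →
      ∃ M₀ : ℕ, 0 < M₀ ∧ W.IsResiduallyModularOfLevel 3 M₀ ∧ ¬ 3 ^ 2 ∣ M₀ ∧
        (∀ q : ℕ, q.Prime → q ≠ 3 → ¬ q ^ 3 ∣ M₀))
    (W : WeierstrassCurve ℤ) (hΔ : W.Δ ≠ 0) (hW : W.IsSemistableModel)
    (hirr : W.ModRepIsIrreducible 3) :
    Mlc1IsModularModelOfExactConductorLevel W := by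
  obtain ⟨M, hM, hres, hcube, hin⟩ := h50 W hΔ hW hirr
  by_cases h9M : 3 ^ 2 ∣ M
  · obtain ⟨M₀, hM₀, hres₀, h9M₀, hcube₀⟩ := h9 W hΔ hW hirr M hM hres hcube h9M (hin h9M)
    have : NeZero M₀ := ⟨hM₀.ne'⟩
    exact h59 3 (Or.inl rfl) W hΔ hW hirr M₀ hres₀ h9M₀ hcube₀
  · have : NeZero M := ⟨hM.ne'⟩
    exact h59 3 (Or.inl rfl) W hΔ hW hirr M hres h9M hcube

/-- Full conditional wiring of S60 from S51, S52, S50, S59 and the level optimisation at 3. -/
theorem wiring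
    (h51 : ∀ (W : WeierstrassCurve ℤ), W.Δ ≠ 0 → W.IsSemistableModel →
      W.ModRepIsIrreducible 3 ∨ W.ModRepIsIrreducible 5)
    (h52 : ∀ (W : WeierstrassCurve ℤ), W.Δ ≠ 0 → W.IsSemistableModel →
      W.ModRepIsIrreducible 5 →
      ∃ W' : WeierstrassCurve ℤ, W'.Δ ≠ 0 ∧ W'.IsSemistableModel ∧ W'.ModRepIsIrreducible 3 ∧
        ∀ ℓ : ℕ, ℓ.Prime → W.IsGoodPrimeFor ℓ → W'.IsGoodPrimeFor ℓ → ℓ ≠ 5 →
          (5 : ℤ) ∣ (W'.apOfModel ℓ - W.apOfModel ℓ))
    (h50 : ∀ (W : WeierstrassCurve ℤ), W.Δ ≠ 0 → W.IsSemistableModel →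
      W.ModRepIsIrreducible 3 →
      ∃ M : ℕ, 0 < M ∧ W.IsResiduallyModularOfLevel 3 M ∧
        (∀ q : ℕ, q.Prime → q ≠ 3 → ¬ q ^ 3 ∣ M) ∧
        (3 ^ 2 ∣ M →
          ∀ A : ValuationSubring (AlgebraicClosure ℚ), A.LiesOverPrime 3 →
            ∀ x : Submodule.torsionBy ℤ
                ((W.map (Int.castRingHom ℚ))⁄(AlgebraicClosure ℚ)).Point (3 : ℕ),
              (∀ σ ∈ A.inertiaSubgroupIn ℚ, σ • x = x) → x = 0))
    (h59 : ∀ (p : ℕ), p = 3 ∨ p = 5 → ∀ (W : WeierstrassCurve ℤ), W.Δ ≠ 0 →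
      W.IsSemistableModel → W.ModRepIsIrreducible p →
      ∀ (M₀ : ℕ) [NeZero M₀], W.IsResiduallyModularOfLevel p M₀ → ¬ p ^ 2 ∣ M₀ →
      (∀ q : ℕ, q.Prime → q ≠ p → ¬ q ^ 3 ∣ M₀) →
      Mlc1IsModularModelOfExactConductorLevel W)
    (h9 : ∀ (W : WeierstrassCurve ℤ), W.Δ ≠ 0 → W.IsSemistableModel →
      W.ModRepIsIrreducible 3 → ∀ M : ℕ, 0 < M → W.IsResiduallyModularOfLevel 3 M →
      (∀ q : ℕ, q.Prime → q ≠ 3 → ¬ q ^ 3 ∣ M) → 3 ^ 2 ∣ M →
      (∀ A : ValuationSubring (AlgebraicClosure ℚ), A.LiesOverPrime 3 →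
            ∀ x : Submodule.torsionBy ℤ
                ((W.map (Int.castRingHom ℚ))⁄(AlgebraicClosure ℚ)).Point (3 : ℕ),
              (∀ σ ∈ A.inertiaSubgroupIn ℚ, σ • x = x) → x = 0) →
      ∃ M₀ : ℕ, 0 < M₀ ∧ W.IsResiduallyModularOfLevel 3 M₀ ∧ ¬ 3 ^ 2 ∣ M₀ ∧
        (∀ q : ℕ, q.Prime → q ≠ 3 → ¬ q ^ 3 ∣ M₀))
    (W : WeierstrassCurve ℤ) (hΔ : W.Δ ≠ 0) (hW : W.IsSemistableModel) :
    (W.map (Int.castRingHom ℚ)).IsModular :=
  wiring_core h51 h52 h59 (mod3_case h50 h59 h9) W hΔ hW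

end Fermat.Agent.S60.helper480
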